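/-
T4E, package P1 CYC (helper8): **generic consequences of the cyclotomic level data `T4eCyc`**
(`Lib/T4E/Tower/Defs.lean`, helper9) of exponent `c ≥ 1`; generalises `Lib/T4/Inst/CycGen.lean`
(`c = 1`).

`ζ` is a primitive `q^c`-th root of unity, `π'` is surjective with kernel the maximal ideal of `O'`,
`π' λ = 0`, `π' ζ = 1`, and

* **`T4eCyc.exists_wilson`**: `q = λ^{φ(q^c)} · u` with `u ∈ O'ˣ`, `π' u = -1`;
* `T4eCyc.one_sub_zeta_pow`, `T4eCyc.one_sub_zeta_pow_unit`: `1 - ζ^b = λ · u`, `π' u = b`;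
* **`T4eCyc.one_sub_zeta_pow_q`**: `1 - ζ^{q^j} = λ^{q^j} · u` with `π' u = 1` (`j < c`);
* `T4eCyc.toT4iCyc`: for `c = 1` the data are T4's `T4iCyc`.
-/
import Fermat.Agent.Lib.T4E.Tower.Defs

set_option autoImplicit false
set_option linter.style.haveILetI false
set_option linter.unusedSectionVars false
set_option linter.unusedVariables false

namespace Fermat.Agent.T4

noncomputable section

open Polynomial

/-! ### Two elementary lemmas -/

/-- the product of the integers `< q m` prime to `q` is `(-1)^m` in characteristic `q` -/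
theorem t4ecy_prod_not_dvd (q : ℕ) (hq : q.Prime) (k : Type*) [Field k] [CharP k q] (m : ℕ) :
    ∏ i ∈ (Finset.range (q * m)).filter (fun i => ¬ q ∣ i), ((i : ℕ) : k) = (-1) ^ m := by
  haveI : Fact q.Prime := ⟨hq⟩
  have hblock : ∀ n : ℕ, ∏ x ∈ Finset.range q,
      (if ¬ q ∣ q * n + x then (((q * n + x : ℕ) : ℕ) : k) else 1) = -1 := by
    intro n
    have h1 : ∀ x ∈ Finset.range q,
        (if ¬ q ∣ q * n + x then (((q * n + x : ℕ) : ℕ) : k) else 1)
          = (if x = 0 then (1 : k) else ((x : ℕ) : k)) := by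
      intro x hx
      rw [Finset.mem_range] at hx
      have hdvd : q ∣ q * n + x ↔ x = 0 := by
        rw [Nat.dvd_add_right (Dvd.intro n rfl)]
        constructor
        · intro h
          exact Nat.eq_zero_of_dvd_of_lt h hx
        · rintro rfl
          exact dvd_zero q
      by_cases hx0 : x = 0
      · rw [if_neg (not_not.mpr (hdvd.mpr hx0)), if_pos hx0]
      · rw [if_pos (fun h => hx0 (hdvd.mp h)), if_neg hx0]
        push_cast
        rw [CharP.cast_eq_zero k q, zero_mul, zero_add]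
    rw [Finset.prod_congr rfl h1]
    obtain ⟨r, hr⟩ : ∃ r, q = r + 1 := ⟨q - 1, (Nat.sub_add_cancel hq.one_lt.le).symm⟩
    rw [hr, Finset.prod_range_succ', if_pos rfl, mul_one]
    have h2 : ∀ x ∈ Finset.range r,
        (if x + 1 = 0 then (1 : k) else (((x + 1 : ℕ) : ℕ) : k)) = (((x + 1 : ℕ) : ℕ) : k) :=
      fun x _ => if_neg (Nat.succ_ne_zero x)
    rw [Finset.prod_congr rfl h2, ← Nat.cast_prod, Finset.prod_range_add_one_eq_factorial]
    have hw := ZMod.wilsons_lemma (p := q)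
    have h3 := congrArg (ZMod.castHom (dvd_refl q) k) hw
    rw [map_natCast, map_neg, map_one] at h3
    have hr' : q - 1 = r := by omega
    rw [hr'] at h3
    exact h3
  induction m with
  | zero => simp
  | succ m ih =>
    rw [Finset.prod_filter] at ih ⊢
    rw [Nat.mul_succ, Finset.prod_range_add, ih, hblock m, pow_succ]

/-- re-indexing of a product over the primitive roots of unity -/
theorem t4ecy_prod_primitiveRoots {R : Type*} [CommRing R] [IsDomain R] {z : R} {n : ℕ}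
    (hn : n ≠ 0) (h : IsPrimitiveRoot z n) {M : Type*} [CommMonoid M] (g : R → M) :
    ∏ μ ∈ primitiveRoots n R, g μ
      = ∏ i ∈ (Finset.range n).filter (fun i => n.Coprime i), g (z ^ i) := by
  haveI : NeZero n := ⟨hn⟩
  symm
  refine Finset.prod_bij (fun i _ => z ^ i) ?_ ?_ ?_ ?_
  · simp only [and_imp, Finset.mem_filter, Finset.mem_range]
    rintro i - hi
    rw [mem_primitiveRoots (Nat.pos_of_ne_zero hn)]
    exact h.pow_of_coprime i hi.symm
  · simp only [and_imp, Finset.mem_filter, Finset.mem_range]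
    rintro i hi - j hj - H
    exact h.pow_inj hi hj H
  · simp only [exists_prop, Finset.mem_filter, Finset.mem_range]
    intro ξ hξ
    rw [mem_primitiveRoots (Nat.pos_of_ne_zero hn), h.isPrimitiveRoot_iff] at hξ
    rcases hξ with ⟨i, hin, hi, H⟩
    exact ⟨i, ⟨hin, hi.symm⟩, H⟩
  · intro i _
    rfl

namespace T4eCyc

variable {L L' : Type*} [Field L] [Field L'] [Algebra L L'] {O : ValuationSubring L}
  {O' : ValuationSubring L'} {k : Type*} [Field k] {π : ↥O →+* k} {π' : ↥O' →+* k} {q c : ℕ}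

theorem isPrimitiveRoot_units (C : T4eCyc O O' π π' q c) (hq : q.Prime) :
    IsPrimitiveRoot (C.ζ : L'ˣ) (q ^ c) := by
  have h1 : orderOf (C.ζ : L'ˣ) ∣ q ^ c := orderOf_dvd_of_pow_eq_one C.ζ_pow
  obtain ⟨j, hj, hj'⟩ := (Nat.dvd_prime_pow hq).mp h1
  have h2 : j = c := by
    by_contra hne
    have hlt : j < c := lt_of_le_of_ne hj hne
    apply C.ζ_prim j hlt
    rw [← hj']
    exact pow_orderOf_eq_one _
  have h3 := IsPrimitiveRoot.orderOf (C.ζ : L'ˣ)
  rwa [hj', h2] at h3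

theorem isPrimitiveRoot (C : T4eCyc O O' π π' q c) (hq : q.Prime) :
    IsPrimitiveRoot ((C.ζ : L'ˣ) : L') (q ^ c) :=
  (C.isPrimitiveRoot_units hq).map_of_injective (f := Units.coeHom L') Units.val_injective

theorem π'_surjective (C : T4eCyc O O' π π' q c) (hπ : Function.Surjective π) :
    Function.Surjective π' := by
  intro t
  obtain ⟨a, rfl⟩ := hπ t
  exact ⟨_, C.π_map a⟩

theorem π'_eq_zero_iff (C : T4eCyc O O' π π' q c) (hπ : Function.Surjective π) (x : ↥O') :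
    π' x = 0 ↔ ¬ IsUnit x := by
  constructor
  · intro h hu
    have := hu.map π'
    rw [h] at this
    exact not_isUnit_zero this
  · intro hx
    have hmax : (RingHom.ker π').IsMaximal :=
      RingHom.ker_isMaximal_of_surjective π' (C.π'_surjective hπ)
    have h1 : RingHom.ker π' = IsLocalRing.maximalIdeal ↥O' := IsLocalRing.eq_maximalIdeal hmax
    have h2 : x ∈ IsLocalRing.maximalIdeal ↥O' := (IsLocalRing.mem_maximalIdeal x).mpr hx
    rw [← h1] at h2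
    exact h2

theorem π'_lam (C : T4eCyc O O' π π' q c) (hπ : Function.Surjective π) : π' C.lam = 0 :=
  (C.π'_eq_zero_iff hπ _).mpr C.unif.not_isUnit

theorem ζ_mem (C : T4eCyc O O' π π' q c) : ((C.ζ : L'ˣ) : L') ∈ O' := by
  have h : ((C.ζ : L'ˣ) : L') = 1 - ((C.lam : ↥O') : L') := by rw [C.lam_eq]; ring
  rw [h]
  exact sub_mem (one_mem _) C.lam.2

/-- `ζ` as an element of `O'` -/
def ζI (C : T4eCyc O O' π π' q c) : ↥O' := ⟨((C.ζ : L'ˣ) : L'), C.ζ_mem⟩

@[simp] theorem coe_ζI (C : T4eCyc O O' π π' q c) : ((C.ζI : ↥O') : L') = ((C.ζ : L'ˣ) : L') := rfl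

theorem lam_eq_one_sub (C : T4eCyc O O' π π' q c) : C.lam = 1 - C.ζI := by
  apply Subtype.ext
  show ((C.lam : ↥O') : L') = 1 - ((C.ζ : L'ˣ) : L')
  exact C.lam_eq

theorem ζI_eq (C : T4eCyc O O' π π' q c) : C.ζI = 1 - C.lam := by
  rw [C.lam_eq_one_sub]; ring

theorem π'_ζ (C : T4eCyc O O' π π' q c) (hπ : Function.Surjective π) : π' C.ζI = 1 := by
  rw [C.ζI_eq, map_sub, map_one, C.π'_lam hπ, sub_zero]

theorem isPrimitiveRoot_ζI (C : T4eCyc O O' π π' q c) (hq : q.Prime) :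
    IsPrimitiveRoot C.ζI (q ^ c) :=
  IsPrimitiveRoot.of_map_of_injective (f := O'.subtype) (C.isPrimitiveRoot hq)
    Subtype.val_injective

theorem ζ_ne_one (C : T4eCyc O O' π π' q c) : ((C.ζ : L'ˣ) : L') ≠ 1 := by
  intro h
  have h1 : ((C.lam : ↥O') : L') = 0 := by rw [C.lam_eq, h, sub_self]
  have h2 : C.lam = 0 := Subtype.ext h1
  exact C.unif.ne_zero h2

/-- `c ≥ 1` -/
theorem c_pos (C : T4eCyc O O' π π' q c) : 0 < c := by
  rcases Nat.eq_zero_or_pos c with h | h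
  · exfalso
    subst h
    have h1 := C.ζ_pow
    rw [pow_zero, pow_one] at h1
    apply C.ζ_ne_one
    rw [h1]
    rfl
  · exact h

/-- `ζ` as a unit of `O'` -/
def ζO (C : T4eCyc O O' π π' q c) (hq : q.Prime) : (↥O')ˣ where
  val := C.ζI
  inv := C.ζI ^ (q ^ c - 1)
  val_inv := by
    apply Subtype.ext
    show ((C.ζ : L'ˣ) : L') * ((C.ζI ^ (q ^ c - 1) : ↥O') : L') = 1
    rw [SubmonoidClass.coe_pow, coe_ζI, ← pow_succ', Nat.sub_add_cancel (pow_pos hq.pos c),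
      ← Units.val_pow_eq_pow_val, C.ζ_pow]
    rfl
  inv_val := by
    apply Subtype.ext
    show ((C.ζI ^ (q ^ c - 1) : ↥O') : L') * ((C.ζ : L'ˣ) : L') = 1
    rw [SubmonoidClass.coe_pow, coe_ζI, ← pow_succ, Nat.sub_add_cancel (pow_pos hq.pos c),
      ← Units.val_pow_eq_pow_val, C.ζ_pow]
    rfl

theorem coe_ζO (C : T4eCyc O O' π π' q c) (hq : q.Prime) :
    (((C.ζO hq : (↥O')ˣ) : ↥O') : L') = ((C.ζ : L'ˣ) : L') := rfl

theorem π'_ζO (C : T4eCyc O O' π π' q c) (hq : q.Prime) (hπ : Function.Surjective π) :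
    π' ((C.ζO hq : (↥O')ˣ) : ↥O') = 1 := C.π'_ζ hπ

/-- `1 - ζ^b = λ · u` in `O'` with `π' u = b` -/
theorem one_sub_ζI_pow (C : T4eCyc O O' π π' q c) (hπ : Function.Surjective π) (b : ℕ) :
    (1 : ↥O') - C.ζI ^ b = C.lam * ∑ i ∈ Finset.range b, C.ζI ^ i ∧
      π' (∑ i ∈ Finset.range b, C.ζI ^ i) = (b : k) := by
  constructor
  · rw [C.lam_eq_one_sub, mul_neg_geom_sum]
  · rw [map_sum]
    simp only [map_pow, C.π'_ζ hπ, one_pow, Finset.sum_const, Finset.card_range, nsmul_eq_mul,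
      mul_one]

/-- **`q = λ^{φ(q^c)} · u` with `u ≡ -1`** (Wilson) -/
theorem exists_wilson (C : T4eCyc O O' π π' q c) (hq : q.Prime) [CharP k q]
    (hπ : Function.Surjective π) :
    ∃ u : ↥O', IsUnit u ∧ ((q : ℕ) : ↥O') = C.lam ^ Nat.totient (q ^ c) * u ∧ π' u = -1 := by
  haveI : Fact q.Prime := ⟨hq⟩
  obtain ⟨c', rfl⟩ : ∃ c', c = c' + 1 := ⟨c - 1, (Nat.sub_add_cancel C.c_pos).symm⟩
  have hzprim := C.isPrimitiveRoot_ζI hq
  have hn0 : q ^ (c' + 1) ≠ 0 := pow_ne_zero _ hq.ne_zero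
  suffices h : ∃ u : ↥O', ((q : ℕ) : ↥O') = C.lam ^ Nat.totient (q ^ (c' + 1)) * u ∧ π' u = -1 by
    obtain ⟨u, hu1, hu2⟩ := h
    refine ⟨u, ?_, hu1, hu2⟩
    by_contra hnu
    have := (C.π'_eq_zero_iff hπ u).mpr hnu
    rw [hu2] at this
    exact one_ne_zero (neg_eq_zero.mp this)
  set S := (Finset.range (q ^ (c' + 1))).filter (fun i => (q ^ (c' + 1)).Coprime i) with hS
  have hSeq : S = (Finset.range (q * q ^ c')).filter (fun i => ¬ q ∣ i) := by
    rw [hS, pow_succ']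
    refine Finset.filter_congr fun i _ => ?_
    rw [← pow_succ', Nat.coprime_pow_left_iff (Nat.succ_pos c'), Nat.Prime.coprime_iff_not_dvd hq]
  refine ⟨∏ i ∈ S, ∑ t ∈ Finset.range i, C.ζI ^ t, ?_, ?_⟩
  · have h1 := eval_one_cyclotomic_prime_pow (R := ↥O') (p := q) c'
    rw [cyclotomic_eq_prod_X_sub_primitiveRoots hzprim, eval_prod] at h1
    have h2 : ∀ μ ∈ primitiveRoots (q ^ (c' + 1)) ↥O', eval 1 (X - Polynomial.C μ) = 1 - μ := by
      intro μ _
      simp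
    rw [Finset.prod_congr rfl h2, t4ecy_prod_primitiveRoots hn0 hzprim (fun μ => 1 - μ)] at h1
    rw [← h1]
    have h3 : ∀ i ∈ S, (1 : ↥O') - C.ζI ^ i = C.lam * ∑ t ∈ Finset.range i, C.ζI ^ t :=
      fun i _ => (C.one_sub_ζI_pow hπ i).1
    rw [Finset.prod_congr rfl h3, Finset.prod_mul_distrib, Finset.prod_const,
      Nat.totient_eq_card_coprime]
  · rw [map_prod]
    have h3 : ∀ i ∈ S, π' (∑ t ∈ Finset.range i, C.ζI ^ t) = ((i : ℕ) : k) :=
      fun i _ => (C.one_sub_ζI_pow hπ i).2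
    rw [Finset.prod_congr rfl h3, hSeq, t4ecy_prod_not_dvd q hq k (q ^ c')]
    exact neg_one_pow_char_pow k q c'

/-- `q = λ^{φ(q^c)} · u` in `L'` -/
theorem exists_wilson' (C : T4eCyc O O' π π' q c) (hq : q.Prime) [CharP k q]
    (hπ : Function.Surjective π) :
    ∃ u : ↥O', IsUnit u ∧
      ((q : ℕ) : L') = ((C.lam : ↥O') : L') ^ Nat.totient (q ^ c) * (u : L') ∧ π' u = -1 := by
  obtain ⟨u, hu, h1, h2⟩ := C.exists_wilson hq hπ
  refine ⟨u, hu, ?_, h2⟩
  have := congrArg (fun x : ↥O' => (x : L')) h1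
  simpa using this

/-- `1 - ζ^b = λ · u` with `u ∈ O'`, `π' u = b` -/
theorem one_sub_zeta_pow (C : T4eCyc O O' π π' q c) (hπ : Function.Surjective π) (b : ℕ) :
    ∃ u : ↥O', (1 : L') - ((C.ζ : L'ˣ) : L') ^ b = ((C.lam : ↥O') : L') * (u : L') ∧
      π' u = (b : k) := by
  obtain ⟨h1, h2⟩ := C.one_sub_ζI_pow hπ b
  refine ⟨∑ i ∈ Finset.range b, C.ζI ^ i, ?_, h2⟩
  have := congrArg (fun x : ↥O' => (x : L')) h1
  simpa using this

/-- `1 - ζ^b = λ · u` with `u ∈ O'ˣ`, `π' u = b`, for `b` prime to `q` -/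
theorem one_sub_zeta_pow_unit (C : T4eCyc O O' π π' q c) [CharP k q]
    (hπ : Function.Surjective π) (b : ℕ) (hb : ¬ q ∣ b) :
    ∃ u : ↥O', IsUnit u ∧ (1 : L') - ((C.ζ : L'ˣ) : L') ^ b = ((C.lam : ↥O') : L') * (u : L') ∧
      π' u = (b : k) := by
  obtain ⟨u, h1, h2⟩ := C.one_sub_zeta_pow hπ b
  refine ⟨u, ?_, h1, h2⟩
  by_contra hnu
  have := (C.π'_eq_zero_iff hπ u).mpr hnu
  rw [h2] at this
  exact hb ((CharP.cast_eq_zero_iff k q b).mp this)

/-- `q ^ j ≤ φ(q ^ c)` for `j < c` -/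
theorem _root_.Fermat.Agent.T4.t4ecy_pow_le_totient {q : ℕ} (hq : q.Prime) {j c : ℕ} (hj : j < c) :
    q ^ j ≤ Nat.totient (q ^ c) := by
  obtain ⟨c', rfl⟩ : ∃ c', c = c' + 1 := ⟨c - 1, by omega⟩
  rw [Nat.totient_prime_pow_succ hq]
  calc q ^ j ≤ q ^ c' := Nat.pow_le_pow_right hq.pos (by omega)
    _ = q ^ c' * 1 := (mul_one _).symm
    _ ≤ q ^ c' * (q - 1) := Nat.mul_le_mul_left _ (by have := hq.two_le; omega)

/-- **`1 - ζ^{q^j} = λ^{q^j} · u` with `π' u = 1`** (`j < c`) -/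
theorem one_sub_ζI_pow_q (C : T4eCyc O O' π π' q c) (hq : q.Prime) [CharP k q]
    (hπ : Function.Surjective π) {j : ℕ} (hj : j < c) :
    ∃ u : ↥O', IsUnit u ∧ (1 : ↥O') - C.ζI ^ (q ^ j) = C.lam ^ (q ^ j) * u ∧ π' u = 1 := by
  haveI : Fact q.Prime := ⟨hq⟩
  obtain ⟨U, hU, hqU, hUres⟩ := C.exists_wilson hq hπ
  obtain ⟨r, hr⟩ := exists_add_pow_prime_pow_eq hq (1 : ↥O') (-C.lam) j
  have hle := t4ecy_pow_le_totient hq hj
  obtain ⟨d, hd⟩ : ∃ d, Nat.totient (q ^ c) = q ^ j + d := ⟨_, (Nat.add_sub_cancel' hle).symm⟩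
  suffices h : ∃ u : ↥O', (1 : ↥O') - C.ζI ^ (q ^ j) = C.lam ^ (q ^ j) * u ∧ π' u = 1 by
    obtain ⟨u, hu1, hu2⟩ := h
    refine ⟨u, ?_, hu1, hu2⟩
    by_contra hnu
    have := (C.π'_eq_zero_iff hπ u).mpr hnu
    rw [hu2] at this
    exact one_ne_zero this
  refine ⟨-(-1) ^ (q ^ j) + C.lam ^ (d + 1) * U * r, ?_, ?_⟩
  · have h1 : C.ζI ^ (q ^ j) = 1 + (-C.lam) ^ (q ^ j) + ((q : ℕ) : ↥O') * 1 * (-C.lam) * r := by
      rw [C.ζI_eq, sub_eq_add_neg, hr, one_pow]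
    rw [h1, hqU, hd, neg_pow C.lam]
    ring
  · rw [map_add, map_neg, map_pow, map_neg, map_one, map_mul, map_mul, map_pow, C.π'_lam hπ,
      zero_pow (Nat.succ_ne_zero d), zero_mul, zero_mul, add_zero,
      neg_one_pow_char_pow k q j, neg_neg]

/-- `1 - ζ^{q^j} = λ^{q^j} · u` in `L'` -/
theorem one_sub_zeta_pow_q (C : T4eCyc O O' π π' q c) (hq : q.Prime) [CharP k q]
    (hπ : Function.Surjective π) {j : ℕ} (hj : j < c) :
    ∃ u : ↥O', IsUnit u ∧
      (1 : L') - ((C.ζ : L'ˣ) : L') ^ (q ^ j) = ((C.lam : ↥O') : L') ^ (q ^ j) * (u : L') ∧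
      π' u = 1 := by
  obtain ⟨u, hu, h1, h2⟩ := C.one_sub_ζI_pow_q hq hπ hj
  refine ⟨u, hu, ?_, h2⟩
  have := congrArg (fun x : ↥O' => (x : L')) h1
  simpa using this

/-- for `c = 1` the data are T4's `T4iCyc` -/
def toT4iCyc (C : T4eCyc O O' π π' q 1) : T4iCyc O O' π π' q where
  ζ := C.ζ
  ζ_pow := by have := C.ζ_pow; rwa [pow_one] at this
  ζ_ne := by
    have := C.ζ_prim 0 Nat.zero_lt_one
    rwa [pow_zero, pow_one] at this
  map_mem := C.map_mem
  π_map := C.π_map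
  lam := C.lam
  lam_eq := C.lam_eq
  unif := C.unif
  τ := C.τ
  τ_ζ := C.τ_ζ
  τ_mem := C.τ_mem
  π_τ := C.π_τ

end T4eCyc

/-- T4's `T4iCyc` as cyclotomic data of exponent `1` -/
def T4iCyc.toT4eCyc {L L' : Type*} [Field L] [Field L'] [Algebra L L'] {O : ValuationSubring L}
    {O' : ValuationSubring L'} {k : Type*} [Field k] {π : ↥O →+* k} {π' : ↥O' →+* k} {q : ℕ}
    (C : T4iCyc O O' π π' q) : T4eCyc O O' π π' q 1 where
  ζ := C.ζ
  ζ_pow := by rw [pow_one]; exact C.ζ_pow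
  ζ_prim := by
    intro j hj
    obtain rfl : j = 0 := by omega
    rw [pow_zero, pow_one]
    exact C.ζ_ne
  map_mem := C.map_mem
  π_map := C.π_map
  lam := C.lam
  lam_eq := C.lam_eq
  unif := C.unif
  τ := C.τ
  τ_ζ := C.τ_ζ
  τ_mem := C.τ_mem
  π_τ := C.π_τ

end

end Fermat.Agent.T4
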