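/-
T4E, package P1 CYC (helper8): **the cyclotomic level of exponent `c` above the inertia level**
(generalises `Lib/T4/Inst/CycVal.lean`, which is `c = 1`).

`𝔓` a place of `ℚ̄` over `p`, `ζ` a primitive `p^c`-th root of unity (`c ≥ 1`), `H_c = t4cyH 𝔓 ζ` its
stabiliser in the inertia group `𝔓.I`:
* `t4ecy_is_one_sub`: `v(1 - ζ) = 1/φ(p^c)` (from `p = Φ_{p^c}(1) = ∏ (1 - μ)`);
* `t4ecy_index`: `[I : H_c] = φ(p^c)`; `t4ecy_exists_inertia`: inertia acts transitively on the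
  primitive `p^c`-th roots of unity; `t4ecyH_normal`;
* `t4ecy_irreducible_lam`: `1 - ζ` is a uniformiser of `O_{H_c}`.
-/
import Fermat.Agent.Lib.T4.Inst.CycVal

set_option autoImplicit false
set_option linter.style.haveILetI false
set_option linter.unusedSectionVars false
set_option linter.unusedVariables false

namespace Fermat.Agent.T4

noncomputable section

open Fermat.Agent.T1 Fermat.Agent.TW Fermat.Agent.S05Lib Polynomial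

local notation "Qb" => AlgebraicClosure ℚ
local notation "GQ" => (AlgebraicClosure ℚ ≃ₐ[ℚ] AlgebraicClosure ℚ)

variable (𝔓 : FFPlace)

theorem t4ecy_one_lt_pow {c : ℕ} (hc : c ≠ 0) : 1 < 𝔓.p ^ c :=
  Nat.one_lt_pow hc 𝔓.hp.one_lt

theorem t4ecy_totient_pos (c : ℕ) : 0 < Nat.totient (𝔓.p ^ c) :=
  Nat.totient_pos.mpr (pow_pos 𝔓.hp.pos c)

/-- `v(1 - ζ) = 1/φ(p^c)` for a primitive `p^c`-th root of unity, `c ≥ 1` -/
theorem t4ecy_is_one_sub {c : ℕ} (hc : c ≠ 0) {ζ : Qb} (hζ : IsPrimitiveRoot ζ (𝔓.p ^ c)) :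
    𝔓.v.Is (1 - ζ) (1 / (Nat.totient (𝔓.p ^ c) : ℚ)) := by
  haveI : Fact 𝔓.p.Prime := ⟨𝔓.hp⟩
  obtain ⟨c', rfl⟩ : ∃ c', c = c' + 1 := ⟨c - 1, by omega⟩
  have hp1 : 1 < 𝔓.p ^ (c' + 1) := t4ecy_one_lt_pow 𝔓 hc
  have hζ1 : (1 : Qb) - ζ ≠ 0 := sub_ne_zero.mpr (fun h => hζ.ne_one hp1 h.symm)
  have hprod : (𝔓.p : Qb) = ∏ μ ∈ primitiveRoots (𝔓.p ^ (c' + 1)) Qb, (1 - μ) := by
    have h1 := eval_one_cyclotomic_prime_pow (R := Qb) (p := 𝔓.p) c'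
    rw [cyclotomic_eq_prod_X_sub_primitiveRoots hζ, eval_prod] at h1
    rw [← h1]
    refine Finset.prod_congr rfl (fun μ _ => ?_)
    simp
  have h2 := 𝔓.is_prod (primitiveRoots (𝔓.p ^ (c' + 1)) Qb) (fun μ => 1 - μ)
    (fun _ => 𝔓.v.ord (1 - ζ))
    (fun μ hμ => by
      have hμ' : IsPrimitiveRoot μ (𝔓.p ^ (c' + 1)) :=
        (mem_primitiveRoots (pow_pos 𝔓.hp.pos _)).mp hμ
      refine ⟨sub_ne_zero.mpr (fun h => hμ'.ne_one hp1 h.symm), ?_⟩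
      exact t4cy_ord_one_sub_eq 𝔓 hp1 hζ hμ')
  rw [← hprod, Finset.sum_const, hζ.card_primitiveRoots, nsmul_eq_mul] at h2
  have h3 := h2.unique 𝔓.is_p
  refine ⟨hζ1, ?_⟩
  have hpos : (0 : ℚ) < (Nat.totient (𝔓.p ^ (c' + 1)) : ℚ) := by
    exact_mod_cast t4ecy_totient_pos 𝔓 (c' + 1)
  rw [eq_div_iff hpos.ne', mul_comm]
  exact h3

theorem t4ecy_orbit_subset {n : ℕ} (hn : 0 < n) {ζ : Qb} (hζ : IsPrimitiveRoot ζ n) :
    MulAction.orbit ↥𝔓.I ζ ⊆ (primitiveRoots n Qb : Set Qb) := by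
  rintro _ ⟨σ, rfl⟩
  rw [Finset.mem_coe, mem_primitiveRoots hn]
  exact hζ.map_of_injective (f := ((σ : 𝔓.I) : GQ)) ((σ : 𝔓.I) : GQ).injective

/-- the stabiliser of a primitive `p^c`-th root of unity has index `φ(p^c)` in the inertia group -/
theorem t4ecy_index {c : ℕ} (hc : c ≠ 0) {ζ : Qb} (hζ : IsPrimitiveRoot ζ (𝔓.p ^ c)) :
    (t4cyH 𝔓 ζ).index = Nat.totient (𝔓.p ^ c) := by
  have hφ : 0 < Nat.totient (𝔓.p ^ c) := t4ecy_totient_pos 𝔓 c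
  have hφ' : (0 : ℚ) < (Nat.totient (𝔓.p ^ c) : ℚ) := by exact_mod_cast hφ
  refine le_antisymm ?_ ?_
  · unfold t4cyH
    rw [MulAction.index_stabilizer, ← hζ.card_primitiveRoots, ← Set.ncard_coe_finset]
    exact Set.ncard_le_ncard (t4ecy_orbit_subset 𝔓 (pow_pos 𝔓.hp.pos c) hζ)
      (Finset.finite_toSet _)
  · have hz : (⟨1 - ζ, sub_mem (one_mem _) (t4cy_mem_tbFix 𝔓 ζ)⟩ : ↥(tbFix 𝔓 (t4cyH 𝔓 ζ))) ≠ 0 := by
      intro h
      have := congrArg Subtype.val h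
      exact (t4ecy_is_one_sub 𝔓 hc hζ).1 this
    obtain ⟨n, hn⟩ := tb_index_mul_ord 𝔓 (t4cyH 𝔓 ζ) _ hz
    simp only [(t4ecy_is_one_sub 𝔓 hc hζ).2] at hn
    have hn' : ((t4cyH 𝔓 ζ).index : ℚ) = n * (Nat.totient (𝔓.p ^ c) : ℚ) := by
      field_simp at hn
      rw [hn, mul_comm]
    have hipos : 0 < (t4cyH 𝔓 ζ).index := tb_index_pos 𝔓 _
    have hnpos : 0 < n := by
      by_contra hcon
      have h0 : (n : ℚ) ≤ 0 := by exact_mod_cast not_lt.mp hcon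
      have h1 : (0 : ℚ) < ((t4cyH 𝔓 ζ).index : ℚ) := by exact_mod_cast hipos
      rw [hn'] at h1
      nlinarith
    have h1 : (1 : ℚ) ≤ n := by exact_mod_cast hnpos
    have h2 : (Nat.totient (𝔓.p ^ c) : ℚ) ≤ ((t4cyH 𝔓 ζ).index : ℚ) := by
      rw [hn']
      nlinarith
    exact_mod_cast h2

/-- inertia acts transitively on the primitive `p^c`-th roots of unity -/
theorem t4ecy_exists_inertia {c : ℕ} (hc : c ≠ 0) {ζ μ : Qb} (hζ : IsPrimitiveRoot ζ (𝔓.p ^ c))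
    (hμ : IsPrimitiveRoot μ (𝔓.p ^ c)) : ∃ σ ∈ 𝔓.I, σ ζ = μ := by
  have hsub := t4ecy_orbit_subset 𝔓 (pow_pos 𝔓.hp.pos c) hζ
  have hcard : (primitiveRoots (𝔓.p ^ c) Qb : Set Qb).ncard ≤ (MulAction.orbit ↥𝔓.I ζ).ncard := by
    rw [← MulAction.index_stabilizer]
    have := t4ecy_index 𝔓 hc hζ
    unfold t4cyH at this
    rw [this, Set.ncard_coe_finset, hζ.card_primitiveRoots]
  have heq := Set.eq_of_subset_of_ncard_le hsub hcard (Finset.finite_toSet _)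
  have hμ' : μ ∈ (primitiveRoots (𝔓.p ^ c) Qb : Set Qb) := by
    rw [Finset.mem_coe, mem_primitiveRoots (pow_pos 𝔓.hp.pos c)]; exact hμ
  rw [← heq] at hμ'
  obtain ⟨σ, hσ⟩ := hμ'
  exact ⟨σ, σ.2, hσ⟩

/-- the stabiliser of a primitive `n`-th root of unity is normal in the inertia group -/
theorem t4ecyH_normal {n : ℕ} (hn : n ≠ 0) {ζ : Qb} (hζ : IsPrimitiveRoot ζ n) :
    (t4cyH 𝔓 ζ).Normal := by
  haveI : NeZero n := ⟨hn⟩
  constructor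
  intro m hm g
  rw [mem_t4cyH] at hm ⊢
  have hμ : IsPrimitiveRoot (((g⁻¹ : 𝔓.I) : GQ) ζ) n :=
    hζ.map_of_injective (f := ((g⁻¹ : 𝔓.I) : GQ)) ((g⁻¹ : 𝔓.I) : GQ).injective
  obtain ⟨b, -, hb⟩ := hζ.eq_pow_of_pow_eq_one hμ.pow_eq_one
  simp only [Subgroup.coe_mul, AlgEquiv.mul_apply]
  rw [← hb, map_pow, hm, hb]
  simp only [Subgroup.coe_inv]
  rw [AlgEquiv.aut_inv, AlgEquiv.apply_symm_apply]

/-- `λ = 1 - ζ` is a uniformiser of `O_{H_c}`, `H_c` the stabiliser of `ζ` -/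
theorem t4ecy_irreducible_lam {c : ℕ} (hc : c ≠ 0) {ζ : Qb} (hζ : IsPrimitiveRoot ζ (𝔓.p ^ c))
    (lam : ↥(tbFixO 𝔓 (t4cyH 𝔓 ζ))) (hlam : ((lam : ↥(tbFix 𝔓 (t4cyH 𝔓 ζ))) : Qb) = 1 - ζ) :
    Irreducible lam := by
  refine t4cy_irreducible 𝔓 _ lam ?_
  rw [hlam, t4ecy_index 𝔓 hc hζ]
  exact t4ecy_is_one_sub 𝔓 hc hζ

end

end Fermat.Agent.T4
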