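/-
T4E, package P1 CYC (helper8): **the cyclotomic level data of exponent `c ≥ 1` at the levels
`tbFix 𝔓 ⊤ ⊆ tbFix 𝔓 H_c`**, `H_c = t4cyH 𝔓 ζ` the stabiliser of a primitive `p^c`-th root of unity
`ζ` in the inertia group (generalises `Lib/T4/Inst/CycData.lean`, which is `c = 1`):
`t4eCycFix 𝔓 hc hζ : T4eCyc (tbFixO 𝔓 ⊤) (tbFixO 𝔓 H_c) (tbFixRes 𝔓 ⊤) (tbFixRes 𝔓 H_c) 𝔓.p c`
(algebra structure `t4cyAlgebra 𝔓 le_top`), and `t4ecy_exists_zeta`.  The uniformiser of `O_⊤` is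
`p` (`t4cy_irreducible_p`, in `Lib/T4/Inst/CycVal.lean`).
-/
import Fermat.Agent.Lib.T4E.Cyc.Val
import Fermat.Agent.Lib.T4E.Cyc.Gen
import Fermat.Agent.Lib.T4.Inst.CycData

set_option autoImplicit false
set_option linter.style.haveILetI false
set_option linter.unusedSectionVars false
set_option linter.unusedVariables false

namespace Fermat.Agent.T4

noncomputable section

open Fermat.Agent.T1 Fermat.Agent.TW Fermat.Agent.S05Lib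

local notation "Qb" => AlgebraicClosure ℚ
local notation "GQ" => (AlgebraicClosure ℚ ≃ₐ[ℚ] AlgebraicClosure ℚ)

variable (𝔓 : FFPlace) {ζ : Qb} {c : ℕ}

/-- there is a primitive `p^c`-th root of unity in `ℚ̄` -/
theorem t4ecy_exists_zeta (c : ℕ) : ∃ ζ : Qb, IsPrimitiveRoot ζ (𝔓.p ^ c) := by
  haveI : NeZero (𝔓.p ^ c) := ⟨pow_ne_zero c 𝔓.hp.ne_zero⟩
  haveI : NeZero ((𝔓.p ^ c : ℕ) : Qb) := ⟨by
    rw [Nat.cast_pow]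
    exact pow_ne_zero c 𝔓.p_ne_zero⟩
  exact HasEnoughRootsOfUnity.exists_primitiveRoot Qb (𝔓.p ^ c)

theorem t4ecyZeta_isPrimitiveRoot (hζ : IsPrimitiveRoot ζ (𝔓.p ^ c)) :
    IsPrimitiveRoot (t4cyZeta 𝔓 ζ) (𝔓.p ^ c) :=
  IsPrimitiveRoot.of_map_of_injective
    (f := algebraMap ↥(tbFix 𝔓 (t4cyH 𝔓 ζ)) Qb) hζ (algebraMap ↥(tbFix 𝔓 (t4cyH 𝔓 ζ)) Qb).injective

theorem t4ecyZeta_ne_zero (hζ : IsPrimitiveRoot ζ (𝔓.p ^ c)) : t4cyZeta 𝔓 ζ ≠ 0 :=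
  (t4ecyZeta_isPrimitiveRoot 𝔓 hζ).ne_zero (pow_ne_zero c 𝔓.hp.ne_zero)

/-- `ζ` as a unit of `L_{H_c}` -/
def t4ecyZetaU (hζ : IsPrimitiveRoot ζ (𝔓.p ^ c)) : (↥(tbFix 𝔓 (t4cyH 𝔓 ζ)))ˣ :=
  Units.mk0 (t4cyZeta 𝔓 ζ) (t4ecyZeta_ne_zero 𝔓 hζ)

/-- an inertia element with `σ ζ = ζ ^ b` -/
theorem t4ecy_exists_pow (hc : c ≠ 0) (hζ : IsPrimitiveRoot ζ (𝔓.p ^ c)) (b : ℕ)
    (hb : ¬ 𝔓.p ∣ b) : ∃ σ : 𝔓.I, ((σ : 𝔓.I) : GQ) ζ = ζ ^ b := by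
  have hcop : b.Coprime (𝔓.p ^ c) :=
    Nat.Coprime.pow_right c ((Nat.Prime.coprime_iff_not_dvd 𝔓.hp).mpr hb).symm
  have hμ : IsPrimitiveRoot (ζ ^ b) (𝔓.p ^ c) := hζ.pow_of_coprime b hcop
  obtain ⟨σ, hσ, h⟩ := t4ecy_exists_inertia 𝔓 hc hζ hμ
  exact ⟨⟨σ, hσ⟩, h⟩

open Classical in
/-- a choice of inertia elements `σ_b`, `σ_b ζ = ζ ^ b` -/
def t4ecySigma (hc : c ≠ 0) (hζ : IsPrimitiveRoot ζ (𝔓.p ^ c)) (b : ℕ) : 𝔓.I :=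
  if hb : ¬ 𝔓.p ∣ b then (t4ecy_exists_pow 𝔓 hc hζ b hb).choose else 1

theorem t4ecySigma_apply (hc : c ≠ 0) (hζ : IsPrimitiveRoot ζ (𝔓.p ^ c)) (b : ℕ)
    (hb : ¬ 𝔓.p ∣ b) : ((t4ecySigma 𝔓 hc hζ b : 𝔓.I) : GQ) ζ = ζ ^ b := by
  unfold t4ecySigma
  rw [dif_pos hb]
  exact (t4ecy_exists_pow 𝔓 hc hζ b hb).choose_spec

/-- **the cyclotomic level data of exponent `c` above the inertia level** -/
def t4eCycFix (hc : c ≠ 0) (hζ : IsPrimitiveRoot ζ (𝔓.p ^ c)) :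
    letI := t4cyAlgebra 𝔓 (le_top : t4cyH 𝔓 ζ ≤ ⊤)
    T4eCyc (tbFixO 𝔓 (⊤ : Subgroup 𝔓.I)) (tbFixO 𝔓 (t4cyH 𝔓 ζ)) (tbFixRes 𝔓 (⊤ : Subgroup 𝔓.I))
      (tbFixRes 𝔓 (t4cyH 𝔓 ζ)) 𝔓.p c :=
  letI := t4cyAlgebra 𝔓 (le_top : t4cyH 𝔓 ζ ≤ ⊤)
  haveI := t4ecyH_normal 𝔓 (pow_ne_zero c 𝔓.hp.ne_zero) hζ
  { ζ := t4ecyZetaU 𝔓 hζ
    ζ_pow := by
      apply Units.ext
      rw [Units.val_pow_eq_pow_val, Units.val_one]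
      exact (t4ecyZeta_isPrimitiveRoot 𝔓 hζ).pow_eq_one
    ζ_prim := by
      intro j hj h
      have h1 := congrArg Units.val h
      rw [Units.val_pow_eq_pow_val, Units.val_one] at h1
      have h2 := (t4ecyZeta_isPrimitiveRoot 𝔓 hζ).dvd_of_pow_eq_one _ h1
      have h3 : 𝔓.p ^ c ≤ 𝔓.p ^ j := Nat.le_of_dvd (pow_pos 𝔓.hp.pos j) h2
      exact absurd h3 (not_le.mpr (Nat.pow_lt_pow_right 𝔓.hp.one_lt hj))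
    map_mem := fun a => (t4cyInc_mem_tbFixO 𝔓 le_top _).mpr a.2
    π_map := fun a => rfl
    lam := t4cyLam 𝔓 ζ (𝔓.is_zero_of_pow_eq_one (pow_pos 𝔓.hp.pos c) hζ.pow_eq_one).ge
    lam_eq := rfl
    unif := t4ecy_irreducible_lam 𝔓 hc hζ _ rfl
    τ := fun b => t4cyTau 𝔓 le_top (t4ecySigma 𝔓 hc hζ b) (Subgroup.mem_top _)
    τ_ζ := fun b hb => by
      apply Subtype.ext
      show ((t4ecySigma 𝔓 hc hζ b : 𝔓.I) : GQ) ζ = _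
      rw [t4ecySigma_apply 𝔓 hc hζ b hb]
      rfl
    τ_mem := fun b x hx => (t4cyTau_mem_tbFixO 𝔓 le_top _ _ x).mpr hx
    π_τ := fun b x => tbFixRes_t4cyTauO 𝔓 le_top (t4ecySigma 𝔓 hc hζ b) (Subgroup.mem_top _) x }

/-- the root of unity of `t4eCycFix` is `ζ` -/
theorem t4eCycFix_ζ (hc : c ≠ 0) (hζ : IsPrimitiveRoot ζ (𝔓.p ^ c)) :
    letI := t4cyAlgebra 𝔓 (le_top : t4cyH 𝔓 ζ ≤ ⊤)
    ((((t4eCycFix 𝔓 hc hζ).ζ : (↥(tbFix 𝔓 (t4cyH 𝔓 ζ)))ˣ) : ↥(tbFix 𝔓 (t4cyH 𝔓 ζ))) : Qb) = ζ :=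
  rfl

end

end Fermat.Agent.T4
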